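import Fermat.Agent.StickelbergerParity.Finite
import Mathlib.NumberTheory.NumberField.Discriminant.Basic
import Mathlib.NumberTheory.LegendreSymbol.Basic
import Mathlib.RingTheory.Ideal.Norm.AbsNorm
import Mathlib.Algebra.Algebra.ZMod

/-!
# The integers modulo a prime not dividing the discriminant

`𝓞 K / p` has the images of an integral basis as a basis over `ℤ/p`, with discriminant the image of
that of `K`, and its maximal ideals are those of the primes above `p`.
-/

set_option autoImplicit false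
set_option linter.style.haveILetI false
set_option linter.unusedSectionVars false

noncomputable section

namespace FA.StickelbergerParity

open NumberField Module Matrix

variable (K : Type*) [Field K] [NumberField K] (p : ℕ) [hp : Fact p.Prime]

/-- `p 𝓞`. -/
def pIdeal : Ideal (𝓞 K) := Ideal.span {(p : 𝓞 K)}

theorem mem_pIdeal {r : 𝓞 K} : r ∈ pIdeal K p ↔ (p : 𝓞 K) ∣ r := Ideal.mem_span_singleton

theorem pIdeal_ne_top : pIdeal K p ≠ ⊤ := fun h => by
  have h1 := congrArg Ideal.absNorm h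
  rw [pIdeal, Ideal.absNorm_span_natCast, Ideal.absNorm_top, RingOfIntegers.rank K] at h1
  exact hp.out.ne_one ((pow_eq_one_iff_left finrank_pos.ne').1 h1)

theorem charP_quotient : CharP (𝓞 K ⧸ pIdeal K p) p := by
  haveI : Nontrivial (𝓞 K ⧸ pIdeal K p) := Ideal.Quotient.nontrivial_iff.2 (pIdeal_ne_top K p)
  rw [CharP.charP_iff_prime_eq_zero hp.out, ← map_natCast (Ideal.Quotient.mk (pIdeal K p)),
    Ideal.Quotient.eq_zero_iff_mem]
  exact Ideal.mem_span_singleton_self _

/-- The algebra over `ℤ/p`. -/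
@[implicit_reducible]
def quotAlgebra : Algebra (ZMod p) (𝓞 K ⧸ pIdeal K p) :=
  haveI := charP_quotient K p
  ZMod.algebra _ p

attribute [local instance] quotAlgebra

theorem smul_mk (c : ℤ) (x : 𝓞 K) :
    (c : ZMod p) • Ideal.Quotient.mk (pIdeal K p) x = Ideal.Quotient.mk _ (c • x) := by
  rw [Algebra.smul_def, map_intCast, zsmul_eq_mul, map_mul, map_intCast]

/-- The images of the integral basis. -/
theorem exists_basis : ∃ b : Basis (Free.ChooseBasisIndex ℤ (𝓞 K)) (ZMod p) (𝓞 K ⧸ pIdeal K p),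
    ∀ (x : 𝓞 K) (i), b.repr (Ideal.Quotient.mk _ x) i = (((RingOfIntegers.basis K).repr x i : ℤ) :
      ZMod p) ∧ b i = Ideal.Quotient.mk _ (RingOfIntegers.basis K i) := by
  set b₀ := RingOfIntegers.basis K
  set π := Ideal.Quotient.mk (pIdeal K p)
  have hx : ∀ x : 𝓞 K, π x = ∑ i, ((b₀.repr x i : ℤ) : ZMod p) • π (b₀ i) := fun x => by
    conv_lhs => rw [← b₀.sum_repr x]
    rw [map_sum]
    exact Finset.sum_congr rfl fun i _ => (smul_mk K p _ _).symm
  have hli : LinearIndependent (ZMod p) (π ∘ b₀) := by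
    rw [Fintype.linearIndependent_iff]
    intro c hc i
    have h : ∑ j, ((c j).val : ℤ) • b₀ j ∈ pIdeal K p := by
      rw [← Ideal.Quotient.eq_zero_iff_mem, map_sum, ← hc]
      refine Finset.sum_congr rfl fun j _ => ?_
      rw [← smul_mk, Int.cast_natCast, ZMod.natCast_zmod_val]
      rfl
    obtain ⟨r, hr⟩ := (mem_pIdeal K p).1 h
    have h2 := congrArg (fun z => b₀.repr z i) hr
    simp only [← nsmul_eq_mul, map_nsmul, Finsupp.coe_smul, Pi.smul_apply] at h2
    rw [b₀.repr_sum_self] at h2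
    have h3 := congrArg (Int.cast : ℤ → ZMod p) h2
    rwa [Int.cast_natCast, ZMod.natCast_zmod_val, nsmul_eq_mul, Int.cast_mul, Int.cast_natCast,
      ZMod.natCast_self, zero_mul] at h3
  have hsp : ⊤ ≤ Submodule.span (ZMod p) (Set.range (π ∘ b₀)) := by
    rintro y -
    obtain ⟨x, rfl⟩ := Ideal.Quotient.mk_surjective y
    rw [hx]
    exact Submodule.sum_mem _ fun i _ => Submodule.smul_mem _ _
      (Submodule.subset_span ⟨i, rfl⟩)
  refine ⟨Basis.mk hli hsp, fun x i => ⟨?_, Basis.mk_apply hli hsp i⟩⟩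
  rw [hx, map_sum, Finsupp.coe_finsetSum, Finset.sum_apply,
    Finset.sum_eq_single i (fun j _ hji => ?_) (by simp)]
  · rw [map_smul, show π (b₀ i) = Basis.mk hli hsp i from (Basis.mk_apply hli hsp i).symm,
      Basis.repr_self]
    simp
  · rw [map_smul, show π (b₀ j) = Basis.mk hli hsp j from (Basis.mk_apply hli hsp j).symm,
      Basis.repr_self]
    simp [hji]

/-- Traces reduce. -/
theorem trace_mk (x : 𝓞 K) :
    Algebra.trace (ZMod p) (𝓞 K ⧸ pIdeal K p) (Ideal.Quotient.mk _ x) =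
      ((Algebra.trace ℤ (𝓞 K) x : ℤ) : ZMod p) := by
  classical
  obtain ⟨b, hb⟩ := exists_basis K p
  rw [Algebra.trace_eq_matrix_trace b, Algebra.trace_eq_matrix_trace (RingOfIntegers.basis K),
    Matrix.trace, Matrix.trace, Int.cast_sum]
  refine Finset.sum_congr rfl fun i _ => ?_
  rw [Matrix.diag, Matrix.diag, Algebra.leftMulMatrix_eq_repr_mul,
    Algebra.leftMulMatrix_eq_repr_mul, (hb x i).2, ← map_mul, (hb _ i).1]

/-- The maximal ideals. -/
theorem card_maximalSpectrum :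
    Nat.card (MaximalSpectrum (𝓞 K ⧸ pIdeal K p)) =
      Nat.card {P : Ideal (𝓞 K) // P.IsPrime ∧ (p : 𝓞 K) ∈ P} := by
  set π := Ideal.Quotient.mk (pIdeal K p) with hπ
  have hs : Function.Surjective π := Ideal.Quotient.mk_surjective
  refine Nat.card_eq_of_bijective (fun I => ⟨I.asIdeal.comap π,
    haveI := I.isMaximal; Ideal.IsPrime.comap π, ?_⟩) ⟨fun I J h => ?_, fun ⟨P, hP, hpP⟩ => ?_⟩
  · rw [Ideal.mem_comap, hπ,
      Ideal.Quotient.eq_zero_iff_mem.2 ((mem_pIdeal K p).2 dvd_rfl)]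
    exact zero_mem _
  · exact MaximalSpectrum.ext (Ideal.comap_injective_of_surjective π hs (congrArg Subtype.val h))
  · have hP0 : P ≠ ⊥ := fun h => by
      rw [h, Ideal.mem_bot] at hpP
      exact Nat.cast_ne_zero.2 hp.out.ne_zero hpP
    haveI hPmax : P.IsMaximal := hP.isMaximal hP0
    have hc : (P.map π).comap π = P := by
      rw [Ideal.comap_map_of_surjective π hs, sup_eq_left, ← RingHom.ker_eq_comap_bot, hπ,
        Ideal.mk_ker, pIdeal, Ideal.span_singleton_le_iff_mem]
      exact hpP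
    have hmax : (P.map π).IsMaximal := by
      rcases Ideal.map_eq_top_or_isMaximal_of_surjective π hs hPmax with h | h
      · exact absurd (by rw [← hc, h, Ideal.comap_top]) hPmax.ne_top
      · exact h
    exact ⟨⟨P.map π, hmax⟩, Subtype.ext hc⟩

theorem discr_basis (b : Basis (Free.ChooseBasisIndex ℤ (𝓞 K)) (ZMod p) (𝓞 K ⧸ pIdeal K p))
    (hb : ∀ i, b i = Ideal.Quotient.mk _ (RingOfIntegers.basis K i)) :
    Algebra.discr (ZMod p) b = ((discr K : ℤ) : ZMod p) := by
  classical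
  rw [← discr_eq_discr K (RingOfIntegers.basis K), Algebra.discr_def, Algebra.discr_def,
    Int.cast_det]
  congr 1
  ext i j
  rw [Matrix.map_apply, Algebra.traceMatrix_apply, Algebra.traceForm_apply,
    Algebra.traceMatrix_apply, Algebra.traceForm_apply, hb i, hb j, ← map_mul, trace_mk]

/-- Between one and `n` primes lie above `p`. -/
theorem card_primes_mem (hpd : ¬ (p : ℤ) ∣ discr K) :
    0 < Nat.card {P : Ideal (𝓞 K) // P.IsPrime ∧ (p : 𝓞 K) ∈ P} ∧
      Nat.card {P : Ideal (𝓞 K) // P.IsPrime ∧ (p : 𝓞 K) ∈ P} ≤ finrank ℚ K := by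
  classical
  obtain ⟨b, hb⟩ := exists_basis K p
  haveI : Module.Finite (ZMod p) (𝓞 K ⧸ pIdeal K p) := Module.Finite.of_basis b
  haveI : Finite (𝓞 K ⧸ pIdeal K p) := Module.finite_of_finite (ZMod p)
  haveI : Nontrivial (𝓞 K ⧸ pIdeal K p) := Ideal.Quotient.nontrivial_iff.2 (pIdeal_ne_top K p)
  haveI := isReduced_of_discr_ne_zero b (by
    rwa [discr_basis K p b fun i => (hb 0 i).2, Ne, ZMod.intCast_zmod_eq_zero_iff_dvd])
  rw [← card_maximalSpectrum, ← RingOfIntegers.rank K, finrank_eq_card_chooseBasisIndex,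
    ← finrank_eq_card_basis b]
  exact ⟨Nat.card_pos, card_maximalSpectrum_le⟩

/-- **The theorem of Stickelberger.** -/
theorem legendreSym_discr (hp2 : p ≠ 2) (hpd : ¬ (p : ℤ) ∣ discr K) :
    legendreSym p (discr K) = (-1) ^ (finrank ℚ K +
      Nat.card {P : Ideal (𝓞 K) // P.IsPrime ∧ (p : 𝓞 K) ∈ P}) := by
  classical
  obtain ⟨b, hb⟩ := exists_basis K p
  have hD := discr_basis K p b fun i => (hb 0 i).2
  have h0 : Algebra.discr (ZMod p) b ≠ 0 := by
    rwa [hD, Ne, ZMod.intCast_zmod_eq_zero_iff_dvd]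
  have h := discr_pow_half hp2 b h0
  rw [hD, ← legendreSym.eq_pow, card_maximalSpectrum, ← finrank_eq_card_chooseBasisIndex,
    RingOfIntegers.rank K] at h
  refine ((ZMod.intCast_eq_intCast_iff_dvd_sub _ _ p).1 ((by exact_mod_cast h :
    ((legendreSym p (discr K) : ℤ) : ZMod p) = (((-1) ^ (finrank ℚ K +
      Nat.card {P : Ideal (𝓞 K) // P.IsPrime ∧ (p : 𝓞 K) ∈ P}) : ℤ) : ZMod p)))).elim
    fun c hc => ?_
  have hne : ((discr K : ℤ) : ZMod p) ≠ 0 := hD ▸ h0
  have hp3 : 3 ≤ p := by have := hp.out.two_le; omega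
  have hp3' : (3 : ℤ) ≤ p := by exact_mod_cast hp3
  rcases legendreSym.eq_one_or_neg_one p hne with e | e <;>
    rcases neg_one_pow_eq_or ℤ (finrank ℚ K +
      Nat.card {P : Ideal (𝓞 K) // P.IsPrime ∧ (p : 𝓞 K) ∈ P}) with e' | e' <;>
    rw [e, e'] at hc ⊢ <;>
    · exfalso
      rcases lt_trichotomy c 0 with hc0 | rfl | hc0
      · nlinarith
      · simp at hc
      · nlinarith

end FA.StickelbergerParity

end
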