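import Mathlib.RingTheory.Discriminant
import Mathlib.RingTheory.Artinian.Module
import Mathlib.RingTheory.Artinian.Ring
import Mathlib.FieldTheory.Finite.Basic
import Mathlib.FieldTheory.IsAlgClosed.AlgebraicClosure
import Mathlib.GroupTheory.Perm.Fin
import Mathlib.LinearAlgebra.StdBasis
import Mathlib.LinearAlgebra.Matrix.Block

/-!
# The quadratic character of the discriminant of a finite étale algebra over `ℤ/p`

For the field of `p ^ f` elements the Frobenius permutes the columns of the matrix of conjugates
cyclically, so `D ^ ((p - 1) / 2) = (-1) ^ (f - 1)` for its discriminant `D`. An algebra with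
nonzero discriminant is a product of fields and the discriminant is multiplicative.
-/

set_option autoImplicit false
set_option linter.style.haveILetI false

noncomputable section

namespace FA.StickelbergerParity

open Module Matrix Finset

variable {p : ℕ} [hp : Fact p.Prime]

theorem pow_half_sq (hp2 : p ≠ 2) {x : ZMod p} (hx : x ≠ 0) : (x ^ 2) ^ (p / 2) = 1 := by
  rw [← pow_mul, show 2 * (p / 2) = p - 1 by
    have := hp.out.two_le
    rcases hp.out.eq_two_or_odd with h | h
    · exact absurd h hp2
    · omega]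
  exact ZMod.pow_card_sub_one_eq_one hx

/-- Changing the basis does not change `D ^ ((p - 1) / 2)`. -/
theorem discr_pow_half_eq (hp2 : p ≠ 2) {A : Type*} [CommRing A] [Algebra (ZMod p) A]
    {ι : Type*} [Fintype ι] [DecidableEq ι] (b b' : Basis ι (ZMod p) A) :
    Algebra.discr (ZMod p) b ^ (p / 2) = Algebra.discr (ZMod p) b' ^ (p / 2) := by
  have hdet : (b'.toMatrix b).det ≠ 0 := by
    intro h
    have h1 := congrArg Matrix.det (b'.toMatrix_mul_toMatrix_flip b)
    rw [det_mul, h, zero_mul, det_one] at h1
    exact zero_ne_one h1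
  conv_lhs => rw [← b'.toMatrix_map_vecMul b]
  rw [Algebra.discr_of_matrix_vecMul, mul_pow, pow_half_sq hp2 hdet, one_mul]

/-- **The finite fields.** -/
theorem discr_pow_half_field (hp2 : p ≠ 2) {L : Type*} [Field L] [Algebra (ZMod p) L]
    {ι : Type*} [Fintype ι] [DecidableEq ι] (b : Basis ι (ZMod p) L) :
    Algebra.discr (ZMod p) b ^ (p / 2) = (-1) ^ (Fintype.card ι + 1) := by
  haveI : Module.Finite (ZMod p) L := Module.Finite.of_basis b
  haveI : Finite L := Module.finite_of_finite (ZMod p)
  haveI := Fintype.ofFinite L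
  set f := finrank (ZMod p) L with hf
  have hf0 : 0 < f := finrank_pos
  obtain ⟨e⟩ : Nonempty (ι ≃ Fin f) := ⟨Fintype.equivFinOfCardEq (finrank_eq_card_basis b).symm⟩
  rw [← Algebra.discr_reindex (ZMod p) b e, show Fintype.card ι = f by
    rw [hf, finrank_eq_card_basis b]]
  set v : Fin f → L := ⇑b ∘ ⇑e.symm with hv
  have hD0 : Algebra.discr (ZMod p) v ≠ 0 := by
    rw [hv, Algebra.discr_reindex]
    exact Algebra.discr_not_zero_of_basis _ b
  -- the embeddings
  set E := AlgebraicClosure L
  haveI : CharP E p := charP_of_injective_algebraMap (algebraMap (ZMod p) E).injective p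
  set j : L →ₐ[ZMod p] E := IsScalarTower.toAlgHom (ZMod p) L E
  set g : Fin f → (L →ₐ[ZMod p] E) := fun i =>
    j.comp (FiniteField.frobeniusAlgHom (ZMod p) L ^ (i : ℕ)) with hg
  have hginj : Function.Injective g := fun a a' h =>
    (FiniteField.bijective_frobeniusAlgHom_pow (ZMod p) L).1 (AlgHom.ext fun x =>
      j.toRingHom.injective (DFunLike.congr_fun h x))
  have hgbij : Function.Bijective g := hginj.bijective_of_nat_card_le (by
    rw [AlgHom.natCard_of_splits (ZMod p) L E fun x => IsAlgClosed.splits _, Nat.card_fin])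
  set σ := Equiv.ofBijective g hgbij
  set M := Algebra.embeddingsMatrixReindex (ZMod p) E v σ with hM
  have hM2 : algebraMap (ZMod p) E (Algebra.discr (ZMod p) v) = M.det ^ 2 :=
    Algebra.discr_eq_det_embeddingsMatrixReindex_pow_two (ZMod p) E v σ
  have hMk : ∀ k i, M k i = j (v k) ^ p ^ (i : ℕ) := fun k i => by
    show j ((FiniteField.frobeniusAlgHom (ZMod p) L ^ (i : ℕ)) (v k)) = _
    rw [AlgHom.coe_pow, FiniteField.coe_frobeniusAlgHom, pow_iterate, ← map_pow, ZMod.card]
  have hrot : M.det ^ p = (Equiv.Perm.sign (finRotate f) : ℤ) * M.det := by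
    rw [← det_permute', ← frobenius_def, RingHom.map_det]
    congr 1
    ext k i
    rw [RingHom.mapMatrix_apply, Matrix.map_apply, submatrix_apply, id_eq, hMk, hMk, frobenius_def,
      ← pow_mul, ← pow_succ]
    obtain ⟨f', hf'⟩ : ∃ f', f = f' + 1 := ⟨f - 1, by omega⟩
    by_cases hi : (i : ℕ) + 1 = f
    · have h0 : (finRotate f i : ℕ) = 0 := by
        clear_value f; subst hf'
        rw [coe_finRotate, if_pos (Fin.ext (by rw [Fin.val_last]; omega))]
      rw [h0, hi, pow_zero, pow_one, ← map_pow]
      congr 1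
      rw [show p ^ f = Fintype.card L by rw [Module.card_eq_pow_finrank (K := ZMod p), ZMod.card]]
      exact FiniteField.pow_card (v k)
    · have h1 : (finRotate f i : ℕ) = i + 1 := by
        clear_value f; subst hf'
        rw [coe_finRotate, if_neg (fun h => hi (by rw [h, Fin.val_last]))]
      rw [h1]
  have hMd : M.det ≠ 0 := fun h => by
    rw [h, zero_pow two_ne_zero, map_eq_zero] at hM2
    exact hD0 hM2
  have hsign : (Equiv.Perm.sign (finRotate f) : ℤ) = (-1) ^ (f + 1) := by
    rw [sign_finRotate]
    push_cast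
    rw [show f + 1 = f - 1 + 2 by omega, pow_add]
    norm_num
  have hpow : M.det ^ (p - 1) = (-1) ^ (f + 1) := by
    refine mul_right_cancel₀ hMd ?_
    rw [← pow_succ, Nat.sub_add_cancel hp.out.one_lt.le, hrot, hsign]
    push_cast
    rfl
  apply (algebraMap (ZMod p) E).injective
  rw [map_pow, map_pow, map_neg, map_one, hM2, ← pow_mul, ← hpow]
  congr 1
  have := hp.out.two_le
  rcases hp.out.eq_two_or_odd with h | h
  · exact absurd h hp2
  · omega

/-- The trace of an element of one factor. -/
theorem trace_pi_single {R : Type*} [CommRing R] {J : Type*} [Fintype J] [DecidableEq J]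
    {S : J → Type*} [∀ j, CommRing (S j)] [∀ j, Algebra R (S j)] {κ : J → Type*}
    [∀ j, Fintype (κ j)] [∀ j, DecidableEq (κ j)] (s : ∀ j, Basis (κ j) R (S j)) (j : J) (x : S j) :
    Algebra.trace R (∀ j, S j) (Pi.single j x) = Algebra.trace R (S j) x := by
  rw [Algebra.trace_eq_matrix_trace (Pi.basis s), Algebra.trace_eq_matrix_trace (s j),
    Matrix.trace, Matrix.trace, Fintype.sum_sigma]
  simp only [Matrix.diag, Algebra.leftMulMatrix_eq_repr_mul, Pi.basis_apply, Pi.basis_repr]
  rw [Finset.sum_eq_single j]
  · refine Finset.sum_congr rfl fun i _ => ?_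
    simp
  · intro k _ hk
    refine Finset.sum_eq_zero fun i _ => ?_
    simp [hk]
  · simp

/-- The determinant of a block diagonal matrix. -/
theorem det_blockDiag {R : Type*} [CommRing R] {J : Type*} [Fintype J] [DecidableEq J]
    {κ : J → Type*} [∀ j, Fintype (κ j)] [∀ j, DecidableEq (κ j)]
    (M : ∀ j, Matrix (κ j) (κ j) R) : (blockDiagonal' M).det = ∏ j, (M j).det := by
  letI : LinearOrder J := LinearOrder.lift' (Fintype.equivFin J) (Fintype.equivFin J).injective
  rw [(blockTriangular_blockDiagonal' M).det_fintype]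
  refine Finset.prod_congr rfl fun k _ => ?_
  rw [← det_submatrix_equiv_self (Equiv.sigmaSubtype k) (M k)]
  congr 1
  ext ⟨⟨a, i⟩, ha⟩ ⟨⟨b, j⟩, hb⟩
  change a = k at ha
  change b = k at hb
  subst a b
  simp [Matrix.toSquareBlock_def, Equiv.sigmaSubtype]

/-- The discriminant is multiplicative. -/
theorem discr_pi {R : Type*} [CommRing R] {J : Type*} [Fintype J] [DecidableEq J]
    {S : J → Type*} [∀ j, CommRing (S j)] [∀ j, Algebra R (S j)] {κ : J → Type*}
    [∀ j, Fintype (κ j)] [∀ j, DecidableEq (κ j)] (s : ∀ j, Basis (κ j) R (S j)) :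
    Algebra.discr R (Pi.basis s) = ∏ j, Algebra.discr R (s j) := by
  have h : Algebra.traceMatrix R (Pi.basis s) =
      blockDiagonal' fun j => Algebra.traceMatrix R (s j) := by
    ext ⟨j, a⟩ ⟨k, c⟩
    rw [blockDiagonal'_apply', Algebra.traceMatrix_apply, Algebra.traceForm_apply, Pi.basis_apply,
      Pi.basis_apply]
    by_cases hjk : j = k
    · subst hjk
      rw [dif_pos rfl, ← Pi.single_mul, trace_pi_single s, Algebra.traceMatrix_apply,
        Algebra.traceForm_apply]
      rfl
    · rw [dif_neg hjk, show Pi.single (M := S) j (s j a) * Pi.single k (s k c) = 0 by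
        funext i
        by_cases hi : i = j
        · subst hi; simp [Pi.single_eq_of_ne hjk]
        · simp [Pi.single_eq_of_ne hi], map_zero]
  rw [Algebra.discr_def, h, det_blockDiag]
  rfl

/-- An algebra with nonzero discriminant is reduced. -/
theorem isReduced_of_discr_ne_zero {F : Type*} [Field F] {A : Type*} [CommRing A] [Algebra F A]
    {ι : Type*} [Fintype ι] [DecidableEq ι] (b : Basis ι F A) (hD : Algebra.discr F b ≠ 0) :
    IsReduced A := by
  refine ⟨fun a ha => ?_⟩
  rw [Algebra.discr_def, Algebra.traceMatrix_of_basis,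
    ← LinearMap.BilinForm.nondegenerate_iff_det_ne_zero] at hD
  refine hD.1 a fun y => ?_
  rw [Algebra.traceForm_apply]
  exact (Algebra.isNilpotent_trace_of_isNilpotent (R := F)
    ((Commute.all a y).isNilpotent_mul_right ha)).eq_zero

/-- **Finite étale algebras**: the parity of the rank plus the number of factors. -/
theorem discr_pow_half (hp2 : p ≠ 2) {A : Type*} [CommRing A] [Algebra (ZMod p) A]
    {ι : Type*} [Fintype ι] [DecidableEq ι] (b : Basis ι (ZMod p) A)
    (hD : Algebra.discr (ZMod p) b ≠ 0) :
    Algebra.discr (ZMod p) b ^ (p / 2) =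
      (-1) ^ (Fintype.card ι + Nat.card (MaximalSpectrum A)) := by
  classical
  haveI : Module.Finite (ZMod p) A := Module.Finite.of_basis b
  haveI : Finite A := Module.finite_of_finite (ZMod p)
  haveI := isReduced_of_discr_ne_zero b hD
  haveI : IsArtinianRing A := inferInstance
  haveI := Fintype.ofFinite (MaximalSpectrum A)
  let S : MaximalSpectrum A → Type _ := fun I => A ⧸ I.asIdeal
  let φ : A ≃ₐ[ZMod p] ∀ I, S I := (IsArtinianRing.equivPi A).restrictScalars (ZMod p)
  let s : ∀ I, Basis (Fin (finrank (ZMod p) (S I))) (ZMod p) (S I) := fun I => finBasis _ _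
  let c := (Pi.basis s).map φ.symm.toLinearEquiv
  set e := b.indexEquiv c with he
  have hc : Algebra.discr (ZMod p) c = Algebra.discr (ZMod p) (Pi.basis s) := by
    rw [Algebra.discr_eq_discr_of_algEquiv (c : _ → A) φ]
    congr 1
    funext i
    simp [c]
  rw [discr_pow_half_eq hp2 b (c.reindex e.symm), Basis.coe_reindex, Algebra.discr_reindex, hc,
    discr_pi, ← Finset.prod_pow, Fintype.card_congr e, Fintype.card_sigma,
    Nat.card_eq_fintype_card, Fintype.card_eq_sum_ones (α := MaximalSpectrum A),
    ← Finset.sum_add_distrib, ← Finset.prod_pow_eq_pow_sum]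
  refine Finset.prod_congr rfl fun I _ => ?_
  letI : Field (S I) := Ideal.Quotient.field I.asIdeal
  exact discr_pow_half_field hp2 (s I)

/-- There are at most as many factors as the rank. -/
theorem card_maximalSpectrum_le {A : Type*} [CommRing A] [Algebra (ZMod p) A] [IsReduced A]
    [Module.Finite (ZMod p) A] :
    Nat.card (MaximalSpectrum A) ≤ finrank (ZMod p) A := by
  classical
  haveI : Finite A := Module.finite_of_finite (ZMod p)
  haveI : IsArtinianRing A := inferInstance
  haveI := Fintype.ofFinite (MaximalSpectrum A)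
  rw [((IsArtinianRing.equivPi A).restrictScalars (ZMod p)).toLinearEquiv.finrank_eq,
    Module.finrank_pi_fintype, Nat.card_eq_fintype_card, Fintype.card_eq_sum_ones]
  refine Finset.sum_le_sum fun I _ => ?_
  haveI : Nontrivial (A ⧸ I.asIdeal) := Ideal.Quotient.nontrivial_iff.2 I.isMaximal.ne_top
  exact Nat.one_le_iff_ne_zero.2 (Module.finrank_pos (R := ZMod p) (M := A ⧸ I.asIdeal)).ne'

end FA.StickelbergerParity

end
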